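/-
P-S44 (block C2, route OMEGA) -- helper23.

`hOmega` AT THE LOWER LEVEL, WITHOUT THE HYPOTHESIS `hdesc`.

Same conclusion as `Descent.OmegaDescended.exists_basis_hOmega_descended`, but the descent step
`Mh -> M'` is discharged by helper64's landed `DescB.desc` (fb-form of DESC) instead of the
j-form literal `hdesc`.  The only new hypothesis is the index condition

  `hidx : ¬ ℓ ∣ (Gamma0 Mh).relIndex (Gamma0 M')`

(= `Descent.Index.not_dvd_relIndex` for `Mh ∣ lcm 4 M'`, `5 ≤ ℓ`; second theorem below).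

= `OmegaFinal.exists_basis_hOmega` at level `Mh` + `DescB.desc` + `Forms.exists_saturated_basis M'`.
-/
import Mathlib
import Fermat.Agent.S40x.C2.OmegaFinal
import Fermat.Agent.S40x.C2.DescB.Main
import Fermat.Agent.S40x.C2.Descent.Index

set_option autoImplicit false
set_option linter.unusedSectionVars false
set_option linter.style.haveILetI false

noncomputable section

namespace Fermat.Agent.S40x.C2.DescentB.OmegaDescB

open Polynomial ModularCurve Fermat.Agent.S28 Fermat.Agent.Lib.Residue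
open IntermediateField HahnSeries AlgebraicCurve CongruenceSubgroup Fermat.Agent.S24.Setup
open Fermat.Agent.Gateway.GoodRed Fermat.Agent.Gateway.GoodRed.ConjFamily UpperHalfPlane
open Fermat.Agent.S40x.C2.OmegaFinal

variable (ℓ : ℕ) [Fact ℓ.Prime] (A : ValuationSubring Kbar)
  {k : Type} [Field k] [IsAlgClosed k] [CharP k ℓ] (π : A →+* k)
  (hπ : Function.Surjective π)

include hπ in
/-- **`hOmega` descended to the level `M'`, no `hdesc`.** -/
theorem exists_basis_hOmega_descB {M' Mh : ℕ} [NeZero M'] [NeZero Mh] (hM : M' ∣ Mh)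
    (h4 : 4 ∣ Mh) (hℓM : ¬ ℓ ∣ Mh) (hA : A.LiesOverPrime ℓ)
    (hidx : ¬ ℓ ∣ (Gamma0 Mh).relIndex (Gamma0 M')) :
    ∃ (f' : Fin (Module.finrank ℂ (CuspForm (Gamma0 M') 2)) → CuspForm (Gamma0 M') 2)
      (qf' : Fin (Module.finrank ℂ (CuspForm (Gamma0 M') 2)) → PowerSeries ℤ),
      (∀ j, qExpansion 1 (f' j) = (qf' j).map (Int.castRingHom ℂ)) ∧
      (∀ j, PowerSeries.constantCoeff (qf' j) = 0) ∧
      LinearIndependent ℂ f' ∧ Submodule.span ℂ (Set.range f') = ⊤ ∧
      LinearIndependent k (fun j => (qf' j).map (Int.castRingHom k)) ∧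
      ∀ fb : Fk k Mh, fb ≠ 0 → (fb : LaurentSeries k) ∈ Fk k M' →
        (∀ P : Place k (Fk k Mh), (ℓ : ℤ) ∣ P.ord fb) →
        Fermat.Agent.S40x.C2.DlogHecke.dlog (fb : LaurentSeries k) ∈
          Submodule.span k (Set.range fun j : Fin (Module.finrank ℂ (CuspForm (Gamma0 M') 2)) =>
            (HahnSeries.ofPowerSeries ℤ k ((qf' j).map (Int.castRingHom k)) :
              LaurentSeries k)) := by
  classical
  have hℓ : ℓ.Prime := Fact.out
  obtain ⟨f', qf', hqf', hc0', hfli', hfspan', hsat'⟩ := Forms.exists_saturated_basis M'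
  obtain ⟨f, qf, hqf, -, -, -, -, hOm⟩ := exists_basis_hOmega ℓ A π hπ hℓM h4 hA
  refine ⟨f', qf', hqf', hc0', hfli', hfspan', hsat' k ℓ hℓ, ?_⟩
  intro fb hfb hfbM' hf
  have hfbL : (fb : LaurentSeries k) ≠ 0 := fun h => hfb (Subtype.ext h)
  obtain ⟨c, hc⟩ := (Submodule.mem_span_range_iff_exists_fun k).mp (hOm fb hfb hf)
  have hc' : ∑ i, HahnSeries.C (c i) *
        HahnSeries.ofPowerSeries ℤ k ((qf i).map (Int.castRingHom k)) =
      HahnSeries.single (1 : ℤ) (1 : k) * D (fb : LaurentSeries k) / (fb : LaurentSeries k) := by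
    have h1 : Fermat.Agent.S40x.C2.DlogHecke.dlog (fb : LaurentSeries k) =
        HahnSeries.single (1 : ℤ) (1 : k) * D (fb : LaurentSeries k) / (fb : LaurentSeries k) :=
      rfl
    rw [← h1, ← hc]
    refine Finset.sum_congr rfl fun i _ => ?_
    rw [HahnSeries.C_mul_eq_smul]
  obtain ⟨c', hc''⟩ := Fermat.Agent.S40x.C2.DescB.desc ℓ A π hπ hℓM hM h4 hidx f qf hqf
    f' qf' hqf' hfspan' (hsat' k ℓ hℓ) (fb : LaurentSeries k) hfbM' hfbL c hc'
  have h1 : Fermat.Agent.S40x.C2.DlogHecke.dlog (fb : LaurentSeries k) =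
      HahnSeries.single (1 : ℤ) (1 : k) * D (fb : LaurentSeries k) / (fb : LaurentSeries k) :=
    rfl
  rw [h1, ← hc'']
  refine Submodule.sum_mem _ fun j _ => ?_
  rw [HahnSeries.C_mul_eq_smul]
  exact Submodule.smul_mem _ _ (Submodule.subset_span ⟨j, rfl⟩)

include hπ in
/-- the same for `Mh ∣ lcm 4 M'` and `5 ≤ ℓ`: the index condition is automatic
(`Descent.Index.not_dvd_relIndex`). -/
theorem exists_basis_hOmega_descB_lcm {M' Mh : ℕ} [NeZero M'] [NeZero Mh] (hM : M' ∣ Mh)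
    (h4 : 4 ∣ Mh) (hℓM : ¬ ℓ ∣ Mh) (hA : A.LiesOverPrime ℓ)
    (hMh : Mh ∣ Nat.lcm 4 M') (h5 : 5 ≤ ℓ) :
    ∃ (f' : Fin (Module.finrank ℂ (CuspForm (Gamma0 M') 2)) → CuspForm (Gamma0 M') 2)
      (qf' : Fin (Module.finrank ℂ (CuspForm (Gamma0 M') 2)) → PowerSeries ℤ),
      (∀ j, qExpansion 1 (f' j) = (qf' j).map (Int.castRingHom ℂ)) ∧
      (∀ j, PowerSeries.constantCoeff (qf' j) = 0) ∧
      LinearIndependent ℂ f' ∧ Submodule.span ℂ (Set.range f') = ⊤ ∧
      LinearIndependent k (fun j => (qf' j).map (Int.castRingHom k)) ∧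
      ∀ fb : Fk k Mh, fb ≠ 0 → (fb : LaurentSeries k) ∈ Fk k M' →
        (∀ P : Place k (Fk k Mh), (ℓ : ℤ) ∣ P.ord fb) →
        Fermat.Agent.S40x.C2.DlogHecke.dlog (fb : LaurentSeries k) ∈
          Submodule.span k (Set.range fun j : Fin (Module.finrank ℂ (CuspForm (Gamma0 M') 2)) =>
            (HahnSeries.ofPowerSeries ℤ k ((qf' j).map (Int.castRingHom k)) :
              LaurentSeries k)) :=
  exists_basis_hOmega_descB ℓ A π hπ hM h4 hℓM hA
    (Fermat.Agent.S40x.C2.Descent.Index.not_dvd_relIndex Fact.out h5 hMh)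

end Fermat.Agent.S40x.C2.DescentB.OmegaDescB

end
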