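import Fermat.Agent.S40x.C2.AsmMain
import Fermat.Agent.S40x.C2.HeckeDLogInst
import Fermat.Agent.S40x.C2.DescB.Close

/-!
# P-S44, block C2 (route OMEGA): `c2_main` with `hdesc` AND `hKH₂` discharged  (helper23)

`AsmMain.c2_main` (helper90, v2: basis first, index set `I`) still has two hypotheses coming from
other leaves: `hdesc` (DESC) and `hKH₂` (Kummer-Hecke at `v_0`).  Both are landed:
`DescB.hdesc_holds` (helper64; `Descent.exists_cuspForm_of_descends`, helper53, is the primary) and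
`HeckeDLogInst.hKH_zero_Qb` (helper40).  `c2_closed` is the composition, for `Mh ∣ lcm 4 M'`,
`5 ≤ q` (index condition from `Descent.Index.not_dvd_relIndex`, helper75).

What is left for the consumer (`Geo`): the class `ξ ∈ X^f`, `ξ ∉ K_q`, its eigen-relations on `I`,
and ONE Kummer function `w`, unit at both valuations, whose two reductions lie in `Fk k M'`.
-/

set_option autoImplicit false
set_option linter.style.haveILetI false
set_option linter.unusedSectionVars false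

noncomputable section

namespace Fermat.Agent.S40x.C2.DescentB.C2Closed

open ModularCurve AlgebraicCurve IntermediateField IsLocalRing HahnSeries CongruenceSubgroup
open UpperHalfPlane
open Fermat.Agent.Gateway.Hecke Fermat.Agent.Gateway.ESC Fermat.Agent.Gateway.Kummer
open Fermat.Agent.Gateway.Red Fermat.Agent.Gateway.GoodRed
open Fermat.Agent.Gateway.GoodRed.ConjFamily (Fk jFk)
open Fermat.Agent.S24.Setup Fermat.Agent.Lib.Residue
open Fermat.Agent.S34x.TwoVal Fermat.Agent.S34x.C0two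
open Fermat.Agent.S34x.Inst.RedSetupInst Fermat.Agent.S34x.Inst
open Fermat.Agent.S33x.KummerPn
open Fermat.Agent.S40x.Slope.UnitTwo Fermat.Agent.S40x.Slope.SlopeInv Fermat.Agent.S40x.Slope.Xf
  Fermat.Agent.S40x.Slope.OfRedSetup Fermat.Agent.S40x.Slope.InstMq
open Fermat.Agent.S16.Two Fermat.Agent.S40x.C2.DlogHecke

attribute [local instance] Fermat.Agent.S40x.C2.Asm4.isAlgebraic_Kbar

variable {A : ValuationSubring Kbar}
  {k : Type} [Field k] {π : A →+* k} [IsAlgClosed k]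
variable {Mh q : ℕ} [NeZero Mh] [NeZero q] [Fact q.Prime] [CharP k q]
variable {hdeg : finrankAlong Kbar (heckeAlphaBar Kbar Mh q) = q + 1} {hq : q.Prime}
  {hqM : ¬ q ∣ Mh}
variable {hrk : ∀ x ∈ maximalIdeal A, ∀ c : A, c ≠ 0 → ∃ j : ℕ, c ∣ x ^ j}
  {hπ : Function.Surjective π}
variable (H : ResidueFacts A π Mh q hdeg hq hqM hrk hπ) (hA : A.LiesOverPrime q)

/-- **`c2_closed`** = `AsmMain.c2_main` with `hdesc` and `hKH₂` discharged. -/
theorem c2_closed {M' : ℕ} [NeZero M'] (hM : M' ∣ Mh) (h4 : 4 ∣ Mh)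
    (hMh : Mh ∣ Nat.lcm 4 M') (h5 : 5 ≤ q) :
    ∃ (f' : Fin (Module.finrank ℂ (CuspForm (Gamma0 M') 2)) → CuspForm (Gamma0 M') 2)
      (qf' : Fin (Module.finrank ℂ (CuspForm (Gamma0 M') 2)) → PowerSeries ℤ),
      (∀ j, qExpansion 1 (f' j) = (qf' j).map (Int.castRingHom ℂ)) ∧
      (∀ j, PowerSeries.constantCoeff (qf' j) = 0) ∧
      LinearIndependent ℂ f' ∧ Submodule.span ℂ (Set.range f') = ⊤ ∧
      LinearIndependent k (fun j => (qf' j).map (Int.castRingHom k)) ∧
      ∀ (a : ℕ → ℤ) (I : Set ℕ),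
        ∀ {ξ : Pic0 Kbar (FL Kbar (Mh * q))}, ξ ∈ XfMq H hA hq.pos → ξ ∉ Km H hA q →
          (∀ (ℓ : ℕ) [NeZero ℓ], ℓ.Prime → ¬ ℓ ∣ Mh * q → ℓ ∈ I →
            heckeOperatorAlong Kbar (Mh * q) ℓ ξ = a ℓ • ξ) →
          ∀ {w : FL Kbar (Mh * q)}, IsKummerRep q ξ w →
            UnitTwo (valInfty A π Mh q hrk hπ hqM) (valZero A π Mh q hdeg hq hqM hrk hπ) w →
            ((red (valInfty A π Mh q hrk hπ hqM) (redSetupInfty H hA).res w :
              modularFunctionFieldFullC k Mh) : LaurentSeries k) ∈ Fk k M' →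
            ((red (valZero A π Mh q hdeg hq hqM hrk hπ) (redSetupZero H hA).res w :
              modularFunctionFieldFullC k Mh) : LaurentSeries k) ∈ Fk k M' →
            ∃ (c : Fin (Module.finrank ℂ (CuspForm (Gamma0 M') 2)) → k) (g : LaurentSeries k),
              g = ∑ j, HahnSeries.C (c j) *
                HahnSeries.ofPowerSeries ℤ k ((qf' j).map (Int.castRingHom k)) ∧
              g ≠ 0 ∧
              ∀ (ℓ : ℕ) [NeZero ℓ], ℓ.Prime → ¬ ℓ ∣ Mh * q → ℓ ∈ I →
                heckeT ℓ g = HahnSeries.C ((a ℓ : ℤ) : k) * g := by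
  obtain ⟨f', qf', hqf', hc0', hfli', hfspan', hsat', hmain⟩ :=
    Fermat.Agent.S40x.C2.AsmMain.c2_main H hA hM h4
      (Fermat.Agent.S40x.C2.DescB.hdesc_holds q A π hπ hM h4 hqM
        (Fermat.Agent.S40x.C2.Descent.Index.not_dvd_relIndex hq h5 hMh))
  refine ⟨f', qf', hqf', hc0', hfli', hfspan', hsat', ?_⟩
  intro a I ξ hξf hξ1 heig w hw hU hw₁ hw₂
  refine hmain a I ?_ hξf hξ1 heig hw hU hw₁ hw₂
  intro ℓ _ hℓ hℓN _ ξ' w' hw' hU' hx
  exact Fermat.Agent.S40x.C2.HeckeDLogInst.hKH_zero_Qb H hℓ hℓN (a ℓ) ξ' w' hw' hU' hx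

end Fermat.Agent.S40x.C2.DescentB.C2Closed

end
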